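import Mathlib.Tactic
import Mathlib.NumberTheory.Padics.RingHoms
import Fermat.Prelude.Def_FLTPrelim_Modularity
import Fermat.Prelude.Def_FLTPrelim_ModularRep

/-!
# Independence of the trace of Frobenius of the model

Point counts over a field are invariant under changes of variables, and two integral models of the
same curve over `ℚ` differ by an `ℓ`-integral change at a common prime `ℓ` of good reduction; hence
they have the same trace of Frobenius there (`apOfModel_eq`).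
-/

set_option autoImplicit false

namespace Fermat.Agent.ModelChange

open WeierstrassCurve

section Count

variable {F : Type*} [CommRing F] [Nontrivial F] (W : WeierstrassCurve F) (C : VariableChange F)

/-- The substitution `(x, y) ↦ (u²x + r, u³y + u²sx + t)`. -/
def substEquiv : F × F ≃ F × F where
  toFun z := ((C.u : F) ^ 2 * z.1 + C.r, (C.u : F) ^ 3 * z.2 + (C.u : F) ^ 2 * C.s * z.1 + C.t)
  invFun z := ((↑C.u⁻¹ : F) ^ 2 * (z.1 - C.r),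
    (↑C.u⁻¹ : F) ^ 3 * (z.2 - C.t - C.s * (z.1 - C.r)))
  left_inv z := by
    have h := C.u.inv_mul
    ext <;> simp only
    · linear_combination ((↑C.u⁻¹ * (C.u : F)) + 1) * z.1 * h
    · linear_combination ((↑C.u⁻¹ * (C.u : F)) ^ 2 + (↑C.u⁻¹ * (C.u : F)) + 1) * z.2 * h
  right_inv z := by
    have h := C.u.mul_inv
    ext <;> simp only
    · linear_combination (((C.u : F) * ↑C.u⁻¹) + 1) * (z.1 - C.r) * h
    · linear_combination (((C.u : F) * ↑C.u⁻¹) ^ 2 + ((C.u : F) * ↑C.u⁻¹) + 1)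
        * (z.2 - C.t - C.s * (z.1 - C.r)) * h
        + (((C.u : F) * ↑C.u⁻¹) + 1) * C.s * (z.1 - C.r) * h

omit [Nontrivial F] in
/-- The substitution carries the equation of `C • W` to that of `W`. -/
lemma equation_subst (z : F × F) :
    (C • W).toAffine.Equation z.1 z.2 ↔
      W.toAffine.Equation (substEquiv C z).1 (substEquiv C z).2 := by
  have h := C.u.mul_inv
  have key : z.2 ^ 2 + (C • W).a₁ * z.1 * z.2 + (C • W).a₃ * z.2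
        - (z.1 ^ 3 + (C • W).a₂ * z.1 ^ 2 + (C • W).a₄ * z.1 + (C • W).a₆)
      = (↑C.u⁻¹ : F) ^ 6 *
        ((substEquiv C z).2 ^ 2 + W.a₁ * (substEquiv C z).1 * (substEquiv C z).2
          + W.a₃ * (substEquiv C z).2 - ((substEquiv C z).1 ^ 3 + W.a₂ * (substEquiv C z).1 ^ 2
          + W.a₄ * (substEquiv C z).1 + W.a₆)) := by
    have hu : ∀ k : ℕ, (C.u : F) ^ k * (↑C.u⁻¹ : F) ^ k = 1 := fun k => by
      rw [← mul_pow, h, one_pow]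
    simp only [substEquiv, Equiv.coe_fn_mk, variableChange_a₁, variableChange_a₂,
      variableChange_a₃, variableChange_a₄, variableChange_a₆]
    linear_combination (-(z.2 ^ 2) + z.1 ^ 3) * hu 6
      - (W.a₁ + 2 * C.s) * z.1 * z.2 * ↑C.u⁻¹ * hu 5
      + (W.a₂ - C.s * W.a₁ + 3 * C.r - C.s ^ 2) * z.1 ^ 2 * (↑C.u⁻¹ : F) ^ 2 * hu 4
      - (W.a₃ + C.r * W.a₁ + 2 * C.t) * z.2 * (↑C.u⁻¹ : F) ^ 3 * hu 3
      + (W.a₄ - C.s * W.a₃ + 2 * C.r * W.a₂ - (C.t + C.r * C.s) * W.a₁ + 3 * C.r ^ 2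
          - 2 * C.s * C.t) * z.1 * (↑C.u⁻¹ : F) ^ 4 * hu 2
  rw [Affine.equation_iff', Affine.equation_iff', key]
  exact (C.u⁻¹.isUnit.pow 6).mul_right_eq_zero

/-- Points of an elliptic curve as the infinite point or a solution of the equation. -/
def pointEquivOption (W : Affine F) (hΔ : W.Δ ≠ 0) :
    W.Point ≃ Option {z : F × F // W.Equation z.1 z.2} where
  toFun
    | .zero => none
    | .some x y h => some ⟨(x, y), h.1⟩
  invFun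
    | none => .zero
    | some z => .some z.1.1 z.1.2 ((W.equation_iff_nonsingular_of_Δ_ne_zero hΔ).1 z.2)
  left_inv P := by cases P <;> rfl
  right_inv z := by cases z <;> rfl

omit [Nontrivial F] in
/-- A change of variables preserves the number of points. -/
theorem card_variableChange (hΔ : W.Δ ≠ 0) : (C • W).card = W.card := by
  have hΔ' : (C • W).Δ ≠ 0 := by
    rw [variableChange_Δ]
    exact fun h => hΔ ((C.u⁻¹.isUnit.pow 12).mul_right_eq_zero.1 h)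
  exact Nat.card_congr ((pointEquivOption _ hΔ').trans
    (((substEquiv C).subtypeEquiv (equation_subst W C)).optionCongr.trans
      (pointEquivOption _ hΔ).symm))

omit [Nontrivial F] in
/-- A change of variables preserves the trace of Frobenius. -/
theorem traceOfFrobenius_variableChange (hΔ : W.Δ ≠ 0) :
    (C • W).traceOfFrobenius = W.traceOfFrobenius := by
  rw [traceOfFrobenius, traceOfFrobenius, card_variableChange W C hΔ]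

end Count

section Padic

variable {ℓ : ℕ} [Fact ℓ.Prime]

/-- A root of a monic quadratic with `ℓ`-integral coefficients is `ℓ`-integral. -/
lemma norm_le_one_of_quadratic {x a b : ℚ_[ℓ]} (ha : ‖a‖ ≤ 1) (hb : ‖b‖ ≤ 1)
    (h : x ^ 2 + a * x = b) : ‖x‖ ≤ 1 := by
  by_contra hx
  push Not at hx
  have h1 : ‖a * x‖ < ‖x ^ 2‖ := by
    rw [norm_mul, norm_pow]; nlinarith [norm_nonneg a]
  have h2 := Padic.add_eq_max_of_ne (ne_of_gt h1)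
  rw [h, max_eq_left h1.le, norm_pow] at h2
  nlinarith

/-- The `r` coordinate of a change between `ℓ`-integral models with unit `u` is `ℓ`-integral. -/
lemma norm_r_le_one {r b₂ b₄ b₆ b₈ d₆ d₈ : ℚ_[ℓ]} (h₂ : ‖b₂‖ ≤ 1) (h₄ : ‖b₄‖ ≤ 1)
    (h₆ : ‖b₆‖ ≤ 1) (h₈ : ‖b₈‖ ≤ 1) (k₆ : ‖d₆‖ ≤ 1) (k₈ : ‖d₈‖ ≤ 1)
    (e₆ : d₆ = b₆ + 2 * r * b₄ + r ^ 2 * b₂ + 4 * r ^ 3)
    (e₈ : d₈ = b₈ + 3 * r * b₆ + 3 * r ^ 2 * b₄ + r ^ 3 * b₂ + 3 * r ^ 4) : ‖r‖ ≤ 1 := by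
  by_contra hr
  push Not at hr
  have hn : ∀ n : ℕ, ‖(n : ℚ_[ℓ])‖ ≤ 1 := fun n => by
    simpa using Padic.norm_int_le_one (p := ℓ) (n : ℤ)
  have hadd : ∀ x y : ℚ_[ℓ], ‖x + y‖ ≤ max ‖x‖ ‖y‖ := Padic.nonarchimedean
  have hr0 : (0 : ℝ) ≤ ‖r‖ := norm_nonneg r
  have p3 : (1 : ℝ) ≤ ‖r‖ ^ 3 := one_le_pow₀ hr.le
  have p2 : (1 : ℝ) ≤ ‖r‖ ^ 2 := one_le_pow₀ hr.le
  have q3 : ‖r‖ ≤ ‖r‖ ^ 3 := le_self_pow₀ hr.le (by norm_num)
  have q2 : ‖r‖ ≤ ‖r‖ ^ 2 := le_self_pow₀ hr.le (by norm_num)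
  have q23 : ‖r‖ ^ 2 ≤ ‖r‖ ^ 3 := pow_le_pow_right₀ hr.le (by norm_num)
  by_cases h : ℓ = 2
  · have h3 : ‖(3 : ℚ_[ℓ])‖ = 1 := by
      subst h
      exact_mod_cast (Padic.norm_natCast_eq_one_iff (p := 2) (n := 3)).2 (by norm_num)
    have hs : ‖-d₈ + b₈ + 3 * r * b₆ + 3 * r ^ 2 * b₄ + r ^ 3 * b₂‖ ≤ ‖r‖ ^ 3 := by
      refine (hadd _ _).trans (max_le ((hadd _ _).trans (max_le ((hadd _ _).trans
        (max_le ((hadd _ _).trans (max_le ?_ ?_)) ?_)) ?_)) ?_)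
      · rw [norm_neg]; exact k₈.trans p3
      · exact h₈.trans p3
      · rw [norm_mul, norm_mul, h3, one_mul]
        exact (mul_le_of_le_one_right hr0 h₆).trans q3
      · rw [norm_mul, norm_mul, h3, one_mul, norm_pow]
        exact (mul_le_of_le_one_right (pow_nonneg hr0 2) h₄).trans q23
      · rw [norm_mul, norm_pow]; nlinarith [norm_nonneg b₂, pow_nonneg hr0 3]
    have he : (3 : ℚ_[ℓ]) * r ^ 4 = -(-d₈ + b₈ + 3 * r * b₆ + 3 * r ^ 2 * b₄ + r ^ 3 * b₂) := by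
      rw [e₈]; ring
    have := congrArg norm he
    rw [norm_neg, norm_mul, h3, one_mul, norm_pow] at this
    nlinarith [pow_lt_pow_right₀ hr (show 3 < 4 by norm_num)]
  · have h4 : ‖(4 : ℚ_[ℓ])‖ = 1 := by
      have hl : Nat.Prime ℓ := Fact.out
      have : ℓ.Coprime 4 := by
        rw [show (4 : ℕ) = 2 ^ 2 by norm_num]
        exact Nat.Coprime.pow_right 2 ((Nat.coprime_primes hl Nat.prime_two).2 h)
      exact_mod_cast (Padic.norm_natCast_eq_one_iff (p := ℓ) (n := 4)).2 this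
    have hs : ‖-d₆ + b₆ + 2 * r * b₄ + r ^ 2 * b₂‖ ≤ ‖r‖ ^ 2 := by
      refine (hadd _ _).trans (max_le ((hadd _ _).trans (max_le ((hadd _ _).trans
        (max_le ?_ ?_)) ?_)) ?_)
      · rw [norm_neg]; nlinarith
      · nlinarith
      · have h2 : ‖(2 : ℚ_[ℓ])‖ ≤ 1 := by simpa using hn 2
        rw [norm_mul, norm_mul]
        nlinarith [norm_nonneg b₄, mul_le_mul h2 h₄ (norm_nonneg _) zero_le_one]
      · rw [norm_mul, norm_pow]; nlinarith [norm_nonneg b₂, pow_nonneg hr0 2]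
    have he : (4 : ℚ_[ℓ]) * r ^ 3 = -(-d₆ + b₆ + 2 * r * b₄ + r ^ 2 * b₂) := by
      rw [e₆]; ring
    have := congrArg norm he
    rw [norm_neg, norm_mul, h4, one_mul, norm_pow] at this
    nlinarith [pow_lt_pow_right₀ hr (show 2 < 3 by norm_num)]

/-- An isomorphism over `ℚ_[ℓ]` of two models over `ℤ_[ℓ]` with unit discriminants descends to
`ℤ_[ℓ]`. -/
theorem exists_variableChange_padicInt (V V' : WeierstrassCurve ℤ_[ℓ])
    (hV : ‖V.Δ‖ = 1) (hV' : ‖V'.Δ‖ = 1) (C : VariableChange ℚ_[ℓ])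
    (hC : C • V.map PadicInt.Coe.ringHom = V'.map PadicInt.Coe.ringHom) :
    ∃ D : VariableChange ℤ_[ℓ], D • V = V' := by
  have hle : ∀ x : ℤ_[ℓ], ‖(x : ℚ_[ℓ])‖ ≤ 1 := fun x => x.2
  have hu12 : ‖((C.u⁻¹ : ℚ_[ℓ]ˣ) : ℚ_[ℓ])‖ ^ 12 = 1 := by
    have h := congrArg (fun E : WeierstrassCurve ℚ_[ℓ] => ‖E.Δ‖) hC
    simp only [variableChange_Δ, map_Δ, norm_mul, norm_pow] at h
    have e : ∀ x : ℤ_[ℓ], ‖(PadicInt.Coe.ringHom x : ℚ_[ℓ])‖ = ‖x‖ := fun _ => rfl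
    rwa [e, e, hV, hV', mul_one] at h
  have hui : ‖((C.u⁻¹ : ℚ_[ℓ]ˣ) : ℚ_[ℓ])‖ = 1 :=
    (pow_eq_one_iff_of_nonneg (norm_nonneg _) (by norm_num)).1 hu12
  have hu : ‖(C.u : ℚ_[ℓ])‖ = 1 := by
    have h := congrArg norm C.u.mul_inv
    rwa [norm_mul, hui, mul_one, norm_one] at h
  -- relations after clearing `u`
  have key : ∀ (k : ℕ) (x y : ℚ_[ℓ]), y = (↑C.u⁻¹ : ℚ_[ℓ]) ^ k * x →
      (C.u : ℚ_[ℓ]) ^ k * y = x := by
    intro k x y h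
    rw [h, ← mul_assoc, ← mul_pow, C.u.mul_inv, one_pow, one_mul]
  have hk : ∀ (k : ℕ) (y : ℚ_[ℓ]), ‖y‖ ≤ 1 → ‖(C.u : ℚ_[ℓ]) ^ k * y‖ ≤ 1 := by
    intro k y hy
    rwa [norm_mul, norm_pow, hu, one_pow, one_mul]
  have hr : ‖C.r‖ ≤ 1 := by
    have e6 := congrArg WeierstrassCurve.b₆ hC
    have e8 := congrArg WeierstrassCurve.b₈ hC
    rw [variableChange_b₆] at e6
    rw [variableChange_b₈] at e8
    simp only [map_b₂, map_b₄, map_b₆, map_b₈] at e6 e8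
    exact norm_r_le_one (hle V.b₂) (hle V.b₄) (hle V.b₆) (hle V.b₈) (hk 6 _ (hle V'.b₆))
      (hk 8 _ (hle V'.b₈)) (key 6 _ _ e6.symm) (key 8 _ _ e8.symm)
  have hsub : ∀ x y : ℚ_[ℓ], ‖x‖ ≤ 1 → ‖y‖ ≤ 1 → ‖x - y‖ ≤ 1 := fun x y hx hy =>
    (PadicInt.subring ℓ).sub_mem hx hy
  have hadd : ∀ x y : ℚ_[ℓ], ‖x‖ ≤ 1 → ‖y‖ ≤ 1 → ‖x + y‖ ≤ 1 := fun x y hx hy =>
    (PadicInt.subring ℓ).add_mem hx hy
  have hmul : ∀ x y : ℚ_[ℓ], ‖x‖ ≤ 1 → ‖y‖ ≤ 1 → ‖x * y‖ ≤ 1 := fun x y hx hy =>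
    (PadicInt.subring ℓ).mul_mem hx hy
  have hs : ‖C.s‖ ≤ 1 := by
    have e2 := congrArg WeierstrassCurve.a₂ hC
    rw [variableChange_a₂] at e2
    have e := key 2 _ _ e2.symm
    refine norm_le_one_of_quadratic (a := (V.a₁ : ℚ_[ℓ]))
      (b := (V.a₂ : ℚ_[ℓ]) + 3 * C.r - (C.u : ℚ_[ℓ]) ^ 2 * (V'.a₂ : ℚ_[ℓ])) (hle _) ?_ ?_
    · exact hsub _ _ (hadd _ _ (hle _)
        (hmul _ _ (by simpa using Padic.norm_int_le_one (p := ℓ) 3) hr)) (hk 2 _ (hle _))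
    · change _ = _ - (C.u : ℚ_[ℓ]) ^ 2 * (V'.map PadicInt.Coe.ringHom).a₂
      rw [e]
      change C.s ^ 2 + (V.a₁ : ℚ_[ℓ]) * C.s = (V.a₂ : ℚ_[ℓ]) + 3 * C.r
        - ((V.a₂ : ℚ_[ℓ]) - C.s * (V.a₁ : ℚ_[ℓ]) + 3 * C.r - C.s ^ 2)
      ring
  have ht : ‖C.t‖ ≤ 1 := by
    have e6 := congrArg WeierstrassCurve.a₆ hC
    rw [variableChange_a₆] at e6
    have e := key 6 _ _ e6.symm
    refine norm_le_one_of_quadratic (a := (V.a₃ : ℚ_[ℓ]) + C.r * (V.a₁ : ℚ_[ℓ]))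
      (b := (V.a₆ : ℚ_[ℓ]) + C.r * (V.a₄ : ℚ_[ℓ]) + C.r ^ 2 * (V.a₂ : ℚ_[ℓ]) + C.r ^ 3
        - (C.u : ℚ_[ℓ]) ^ 6 * (V'.a₆ : ℚ_[ℓ])) (hadd _ _ (hle _) (hmul _ _ hr (hle _))) ?_ ?_
    · refine hsub _ _ (hadd _ _ (hadd _ _ (hadd _ _ (hle _) (hmul _ _ hr (hle _)))
        (hmul _ _ ?_ (hle _))) ?_) (hk 6 _ (hle _))
      · exact (PadicInt.subring ℓ).pow_mem hr 2
      · exact (PadicInt.subring ℓ).pow_mem hr 3
    · change _ = _ - (C.u : ℚ_[ℓ]) ^ 6 * (V'.map PadicInt.Coe.ringHom).a₆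
      rw [e]
      simp only [map_a₁, map_a₂, map_a₃, map_a₄, map_a₆]
      change C.t ^ 2 + ((V.a₃ : ℚ_[ℓ]) + C.r * (V.a₁ : ℚ_[ℓ])) * C.t = _
        - ((V.a₆ : ℚ_[ℓ]) + C.r * (V.a₄ : ℚ_[ℓ]) + C.r ^ 2 * (V.a₂ : ℚ_[ℓ]) + C.r ^ 3
          - C.t * (V.a₃ : ℚ_[ℓ]) - C.t ^ 2 - C.r * C.t * (V.a₁ : ℚ_[ℓ]))
      ring
  let D : VariableChange ℤ_[ℓ] :=
    ⟨PadicInt.mkUnits hu, (⟨C.r, hr⟩ : ℤ_[ℓ]), (⟨C.s, hs⟩ : ℤ_[ℓ]), (⟨C.t, ht⟩ : ℤ_[ℓ])⟩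
  have hD : D.map (PadicInt.Coe.ringHom : ℤ_[ℓ] →+* ℚ_[ℓ]) = C := by ext <;> rfl
  refine ⟨D, WeierstrassCurve.map_injective (f := (PadicInt.Coe.ringHom : ℤ_[ℓ] →+* ℚ_[ℓ]))
      (fun _ _ h => Subtype.ext h) ?_⟩
  change (D • V).map _ = V'.map _
  rw [← map_variableChange, hD, hC]

end Padic

/-- Two integral models of one curve have equal `a_ℓ` at common good primes. -/
theorem apOfModel_eq {W W' : WeierstrassCurve ℤ} {E : WeierstrassCurve ℚ}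
    (hW : W.IsIntegralModelOf E) (hW' : W'.IsIntegralModelOf E) {ℓ : ℕ} (hℓ : ℓ.Prime)
    (hg : W.IsGoodPrimeFor ℓ) (hg' : W'.IsGoodPrimeFor ℓ) : W.apOfModel ℓ = W'.apOfModel ℓ := by
  have : Fact ℓ.Prime := ⟨hℓ⟩
  obtain ⟨C₁, hC₁⟩ := hW
  obtain ⟨C₂, hC₂⟩ := hW'
  have hC : (C₂ * C₁⁻¹) • W.map (Int.castRingHom ℚ) = W'.map (Int.castRingHom ℚ) := by
    rw [← hC₁, mul_smul, inv_smul_smul, hC₂]
  set V := W.map (Int.castRingHom ℤ_[ℓ]) with hV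
  set V' := W'.map (Int.castRingHom ℤ_[ℓ]) with hV'
  have hnorm : ∀ n : ℤ, ¬ (ℓ : ℤ) ∣ n → ‖(n : ℤ_[ℓ])‖ = 1 := fun n hn =>
    le_antisymm (PadicInt.norm_le_one _) (not_lt.1 fun h =>
      hn ((PadicInt.norm_int_lt_one_iff_dvd _).1 h))
  have hq : ∀ X : WeierstrassCurve ℤ, (X.map (Int.castRingHom ℚ)).map (Rat.castHom ℚ_[ℓ]) =
      (X.map (Int.castRingHom ℤ_[ℓ])).map PadicInt.Coe.ringHom := fun X => by
    rw [map_map, map_map]; congr 1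
  obtain ⟨D, hD⟩ := exists_variableChange_padicInt V V'
    (by rw [hV, map_Δ]; exact hnorm _ hg) (by rw [hV', map_Δ]; exact hnorm _ hg')
    ((C₂ * C₁⁻¹).map (Rat.castHom ℚ_[ℓ]))
    (by rw [hV, hV', ← hq, ← hq, map_variableChange, hC])
  have hr : ∀ X : WeierstrassCurve ℤ,
      X.reductionMod ℓ = (X.map (Int.castRingHom ℤ_[ℓ])).map PadicInt.toZMod := fun X => by
    rw [reductionMod, map_map]; congr 1; exact RingHom.ext_int _ _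
  have hΔ : (V.map PadicInt.toZMod).Δ ≠ 0 := by
    rw [hV, ← hr, reductionMod, map_Δ, eq_intCast]
    exact fun h => hg ((ZMod.intCast_zmod_eq_zero_iff_dvd _ _).1 h)
  rw [apOfModel, apOfModel, hr, hr, ← hV, ← hV', ← hD, ← map_variableChange,
    traceOfFrobenius_variableChange _ _ hΔ]

end Fermat.Agent.ModelChange
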